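import Mathlib
import Fermat.Agent.S56.GW.EC.H2Low.Seams
import Fermat.Agent.S56.GW.EC.Mult.Hx2

/-!
# S56 / [GW-EC] / [EC-H2LOW], cell [CNT] (prefix `s56e2c_`)

`s56e2c_main : s56e2_Count_stmt`: the counting step from "classes with prescribed invariants" to
the inequality (LOW) of [EC-BASE].

With `K₀ = {a ∈ PT | Σ_v a_v = 0}`, `K' = {y ∈ Br[p] | Σ_v Λ(y)_v = 0}`:
`h_X(PT) ≤ h_X(K₀) · h_X(P₁)` (left exactness, `s56emg_hx_le`),
`h_X(K') = h_X(ker) · h_X(K₀)` (`s56emg_hx_ses`, `Λ : K' → K₀` is onto),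
`h_X(K') ≤ h_X(Br[p]) = h_X(Br)` (`s56emg_hx_mono`, `s56emg_hx_torsion`).
-/

set_option autoImplicit false
set_option linter.style.haveILetI false
set_option linter.unusedSectionVars false

namespace Fermat.Agent.S56

/-- The action on a stable additive subgroup. -/
@[reducible] def s56e2c_subAct {B A : Type*} [Monoid B] [AddCommGroup A] [DistribMulAction B A]
    (H : AddSubgroup A) (hH : ∀ (b : B), ∀ a ∈ H, b • a ∈ H) : DistribMulAction B ↥H where
  smul b a := ⟨b • a.1, hH b a.1 a.2⟩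
  one_smul a := Subtype.ext (one_smul B a.1)
  mul_smul b c a := Subtype.ext (mul_smul b c a.1)
  smul_zero b := Subtype.ext (smul_zero b)
  smul_add b a a' := Subtype.ext (smul_add b a.1 a'.1)

lemma s56e2c_smul_nsmul {B A : Type*} [Monoid B] [AddCommGroup A] [DistribMulAction B A]
    (b : B) (n : ℕ) (a : A) : b • (n • a) = n • (b • a) :=
  map_nsmul (DistribSMul.toAddMonoidHom A b) n a

theorem s56e2c_main : s56e2_Count_stmt := by
  intro p _ B _ _ hpB X _ _ _ hX Br _ _ hfinT Y _ _ _ PT _ _ eT heT P₁ _ _ e₁ hP₁ Λ hΛadd hΛeq hΛonto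
  classical
  -- basic facts on `Λ`
  have hΛ0 : Λ 0 = 0 := by
    have h := hΛadd 0 0 (smul_zero p) (smul_zero p)
    rw [add_zero] at h
    exact left_eq_add.1 h
  have hΛneg : ∀ y : Br, p • y = 0 → Λ (-y) = -Λ y := by
    intro y hy
    have h := hΛadd y (-y) hy (by rw [smul_neg, hy, neg_zero])
    rw [add_neg_cancel, hΛ0] at h
    exact (neg_eq_of_add_eq_zero_right h.symm).symm
  have hsumΛ : ∀ (b : B) (y : Br), p • y = 0 → ∑ v, Λ (b • y) v = ∑ v, Λ y v := by
    intro b y hy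
    refine Fintype.sum_equiv (MulAction.toPerm (b⁻¹ : B) : Equiv.Perm Y) _ _ ?_
    intro v
    rw [hΛeq b y hy v]
    rfl
  have hsumT : ∀ (b : B) (a : PT), ∑ v, eT (b • a) v = ∑ v, eT a v := by
    intro b a
    refine Fintype.sum_equiv (MulAction.toPerm (b⁻¹ : B) : Equiv.Perm Y) _ _ ?_
    intro v
    rw [heT b a v]
    rfl
  -- the torsion subgroup of `Br`
  let Tor : AddSubgroup Br :=
    { carrier := {y | p • y = 0}
      zero_mem' := smul_zero p
      add_mem' := fun {y y'} hy hy' => by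
        show p • (y + y') = 0
        rw [smul_add, hy, hy', add_zero]
      neg_mem' := fun {y} hy => by
        show p • (-y) = 0
        rw [smul_neg, hy, neg_zero] }
  have hTor : ∀ (b : B), ∀ y ∈ Tor, b • y ∈ Tor := by
    intro b y hy
    show p • (b • y) = 0
    rw [← s56e2c_smul_nsmul, hy, smul_zero]
  letI actTor := s56e2c_subAct Tor hTor
  haveI : Finite ↥Tor := hfinT
  -- `K' = {y ∈ Br[p] | Σ Λ y = 0}`
  let K' : AddSubgroup Br :=
    { carrier := {y | p • y = 0 ∧ ∑ v, Λ y v = 0}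
      zero_mem' := ⟨smul_zero p, by rw [hΛ0]; simp⟩
      add_mem' := fun {y y'} hy hy' => by
        refine ⟨by rw [smul_add, hy.1, hy'.1, add_zero], ?_⟩
        rw [hΛadd y y' hy.1 hy'.1]
        simp only [Pi.add_apply, Finset.sum_add_distrib, hy.2, hy'.2, add_zero]
      neg_mem' := fun {y} hy => by
        refine ⟨by rw [smul_neg, hy.1, neg_zero], ?_⟩
        rw [hΛneg y hy.1]
        simp only [Pi.neg_apply, Finset.sum_neg_distrib, hy.2, neg_zero] }
  have hK' : ∀ (b : B), ∀ y ∈ K', b • y ∈ K' := by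
    intro b y hy
    refine ⟨hTor b y hy.1, ?_⟩
    rw [hsumΛ b y hy.1]
    exact hy.2
  letI actK' := s56e2c_subAct K' hK'
  -- the kernel of `Λ` on the torsion
  let Ker : AddSubgroup Br :=
    { carrier := {y | p • y = 0 ∧ Λ y = 0}
      zero_mem' := ⟨smul_zero p, hΛ0⟩
      add_mem' := fun {y y'} hy hy' => by
        refine ⟨by rw [smul_add, hy.1, hy'.1, add_zero], ?_⟩
        rw [hΛadd y y' hy.1 hy'.1, hy.2, hy'.2, add_zero]
      neg_mem' := fun {y} hy => by
        refine ⟨by rw [smul_neg, hy.1, neg_zero], ?_⟩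
        rw [hΛneg y hy.1, hy.2, neg_zero] }
  have hKer : ∀ (b : B), ∀ y ∈ Ker, b • y ∈ Ker := by
    intro b y hy
    refine ⟨hTor b y hy.1, ?_⟩
    funext v
    rw [hΛeq b y hy.1 v, hy.2]
    rfl
  letI actKer := s56e2c_subAct Ker hKer
  -- `K₀ = {a ∈ PT | Σ a = 0}`
  let K₀ : AddSubgroup PT :=
    { carrier := {a | ∑ v, eT a v = 0}
      zero_mem' := by
        show ∑ v, eT 0 v = 0
        rw [map_zero]; simp
      add_mem' := fun {a a'} ha ha' => by
        show ∑ v, eT (a + a') v = 0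
        rw [map_add]
        simp only [Pi.add_apply, Finset.sum_add_distrib]
        rw [ha, ha', add_zero]
      neg_mem' := fun {a} ha => by
        show ∑ v, eT (-a) v = 0
        rw [map_neg]
        simp only [Pi.neg_apply, Finset.sum_neg_distrib]
        rw [ha, neg_zero] }
  have hK₀ : ∀ (b : B), ∀ a ∈ K₀, b • a ∈ K₀ := by
    intro b a ha
    show ∑ v, eT (b • a) v = 0
    rw [hsumT b a]
    exact ha
  letI actK₀ := s56e2c_subAct K₀ hK₀
  haveI : Finite PT := Finite.of_equiv _ eT.symm.toEquiv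
  haveI : Finite P₁ := Finite.of_equiv _ e₁.symm.toEquiv
  haveI : Finite ↥K₀ := inferInstance
  -- Step 1: `h(PT) ≤ h(K₀) h(P₁)`
  let σ : PT →+ P₁ :=
    { toFun := fun a => e₁.symm (∑ v, eT a v)
      map_zero' := by
        rw [map_zero]; simp
      map_add' := fun a a' => by
        rw [map_add]
        simp only [Pi.add_apply, Finset.sum_add_distrib, map_add] }
  have step1 : Nat.card (X →+[B] PT) ≤ Nat.card (X →+[B] ↥K₀) * Nat.card (X →+[B] P₁) := by
    refine s56emg_hx_le X K₀.subtype σ (fun _ _ => rfl) ?_ Subtype.val_injective ?_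
    · intro b a
      show e₁.symm (∑ v, eT (b • a) v) = b • e₁.symm (∑ v, eT a v)
      rw [hP₁, hsumT]
    · intro a ha
      have h1 : e₁.symm (∑ v, eT a v) = 0 := ha
      have h2 : ∑ v, eT a v = 0 := by
        have := congrArg e₁ h1
        rwa [AddEquiv.apply_symm_apply, map_zero] at this
      exact ⟨⟨a, h2⟩, rfl⟩
  -- Step 2: `h(K') = h(Ker) h(K₀)`
  let lam : ↥K' →+ ↥K₀ :=
    { toFun := fun y => ⟨eT.symm (Λ y.1), by
        show ∑ v, eT (eT.symm (Λ y.1)) v = 0
        rw [AddEquiv.apply_symm_apply]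
        exact y.2.2⟩
      map_zero' := by
        apply Subtype.ext
        show eT.symm (Λ (0 : Br)) = 0
        rw [hΛ0, map_zero]
      map_add' := fun y y' => by
        apply Subtype.ext
        show eT.symm (Λ (y.1 + y'.1)) = eT.symm (Λ y.1) + eT.symm (Λ y'.1)
        rw [hΛadd y.1 y'.1 y.2.1 y'.2.1, map_add] }
  let ι : ↥Ker →+ ↥K' :=
    { toFun := fun y => ⟨y.1, ⟨y.2.1, by rw [y.2.2]; simp⟩⟩
      map_zero' := rfl
      map_add' := fun _ _ => rfl }
  have hK'tor : ∀ y : ↥K', p • y = 0 := by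
    intro y
    apply Subtype.ext
    rw [AddSubgroup.coe_nsmul]
    exact y.2.1
  have step2 : Nat.card (X →+[B] ↥K') = Nat.card (X →+[B] ↥Ker) * Nat.card (X →+[B] ↥K₀) := by
    refine s56emg_hx_ses X hpB hK'tor ι lam (fun _ _ => rfl) ?_ ?_ ?_ ?_
    · intro b y
      apply Subtype.ext
      show eT.symm (Λ (b • y.1)) = b • eT.symm (Λ y.1)
      apply eT.injective
      rw [AddEquiv.apply_symm_apply]
      funext v
      rw [heT, AddEquiv.apply_symm_apply, hΛeq b y.1 y.2.1 v]
    · intro y y' hyy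
      apply Subtype.ext
      exact congrArg (fun z : ↥K' => z.1) hyy
    · intro y
      constructor
      · intro h
        have h1 : eT.symm (Λ y.1) = 0 := congrArg Subtype.val h
        have h2 : Λ y.1 = 0 := by
          have := congrArg eT h1
          rwa [AddEquiv.apply_symm_apply, map_zero] at this
        exact ⟨⟨y.1, ⟨y.2.1, h2⟩⟩, Subtype.ext rfl⟩
      · rintro ⟨k, rfl⟩
        apply Subtype.ext
        show eT.symm (Λ k.1) = 0
        rw [k.2.2, map_zero]
    · intro a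
      obtain ⟨y, hy, hya⟩ := hΛonto (eT a.1) a.2
      refine ⟨⟨y, ⟨hy, by rw [hya]; exact a.2⟩⟩, ?_⟩
      apply Subtype.ext
      show eT.symm (Λ y) = a.1
      rw [hya, AddEquiv.symm_apply_apply]
  -- Step 3: `h(K') ≤ h(Br[p]) = h(Br)`
  let j : ↥K' →+ ↥Tor :=
    { toFun := fun y => ⟨y.1, y.2.1⟩
      map_zero' := rfl
      map_add' := fun _ _ => rfl }
  have step3 : Nat.card (X →+[B] ↥K') ≤ Nat.card (X →+[B] ↥Tor) := by
    refine s56emg_hx_mono X j (fun _ _ => rfl) ?_
    intro y y' hyy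
    apply Subtype.ext
    exact congrArg (fun z : ↥Tor => z.1) hyy
  let ιT : ↥Tor →+[B] Br :=
    { toFun := fun y => y.1
      map_smul' := fun _ _ => rfl
      map_zero' := rfl
      map_add' := fun _ _ => rfl }
  have step4 : Nat.card (X →+[B] Br) = Nat.card (X →+[B] ↥Tor) := by
    refine s56emg_hx_torsion (p := p) X hX ιT Subtype.val_injective ?_
    intro t
    constructor
    · intro ht
      exact ⟨⟨t, ht⟩, rfl⟩
    · rintro ⟨k, rfl⟩
      exact k.2
  -- conclusion
  haveI : Finite ↥Ker := Finite.of_injective (fun y : ↥Ker => (⟨y.1, y.2.1⟩ : ↥Tor))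
    (fun y y' h => Subtype.ext (congrArg (fun z : ↥Tor => z.1) h))
  have hpos : 0 < Nat.card (X →+[B] ↥Ker) := s56emg_hx_pos X
  have h5 : Nat.card (X →+[B] ↥K₀) ≤ Nat.card (X →+[B] ↥K') := by
    rw [step2]
    exact Nat.le_mul_of_pos_left _ hpos
  calc Nat.card (X →+[B] PT) ≤ Nat.card (X →+[B] ↥K₀) * Nat.card (X →+[B] P₁) := step1
    _ ≤ Nat.card (X →+[B] ↥K') * Nat.card (X →+[B] P₁) := Nat.mul_le_mul_right _ h5
    _ ≤ Nat.card (X →+[B] ↥Tor) * Nat.card (X →+[B] P₁) := Nat.mul_le_mul_right _ step3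
    _ = Nat.card (X →+[B] Br) * Nat.card (X →+[B] P₁) := by rw [step4]

end Fermat.Agent.S56
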